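import Mathlib.GroupTheory.FiniteAbelian.Basic
import Mathlib.GroupTheory.Abelianization.Defs
import Mathlib.GroupTheory.Finiteness
import Mathlib.GroupTheory.Schreier
import Mathlib.Data.Nat.Prime.Infinite
import Mathlib.LinearAlgebra.Finsupp.Defs
import Fermat.Agent.Gamma0.Count

/-!
# `ellParHoms Γ A ≅ A ^ (2g)` naturally in `A`
-/

open scoped MatrixGroups DirectSum
open ModularGroup

namespace Fermat.Agent.Gamma0

variable (Γ : Subgroup SL(2, ℤ))

/-- images of the non-hyperbolic elements in the abelianisation -/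
def nonHyp : Set (Additive (Abelianization Γ)) :=
  {a | ∃ γ : Γ, ((γ : SL(2, ℤ)) : Matrix (Fin 2) (Fin 2) ℤ).trace ^ 2 ≤ 4 ∧
    Additive.ofMul (Abelianization.of γ) = a}

/-- `Γ^ab` modulo elliptic and parabolic elements (the homology of the compact curve) -/
abbrev H1 : Type := Additive (Abelianization Γ) ⧸ AddSubgroup.closure (nonHyp Γ)

/-- the projection `Γ → H1 Γ` -/
def toH1 : Additive Γ →+ H1 Γ :=
  (QuotientAddGroup.mk' _).comp (MonoidHom.toAdditive Abelianization.of)

theorem toH1_surjective : Function.Surjective (toH1 Γ) := by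
  intro q
  induction q using QuotientAddGroup.induction_on with | _ a => ?_
  obtain ⟨γ, hγ⟩ := QuotientGroup.mk_surjective (Additive.toMul a)
  exact ⟨Additive.ofMul γ, congrArg (QuotientAddGroup.mk' _) (congrArg Additive.ofMul hγ)⟩

theorem H1_fg [Γ.FiniteIndex] : AddGroup.FG (H1 Γ) := by
  have : Group.FG SL(2, ℤ) := Group.fg_iff.2
    ⟨{ModularGroup.S, ModularGroup.T}, SpecialLinearGroup.SL2Z_generators, Set.toFinite _⟩
  have h1 : Group.FG Γ := Subgroup.fg_of_index_ne_zero Γ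
  have h2 : AddGroup.FG (Additive Γ) := GroupFG.iff_add_fg.1 h1
  exact AddGroup.fg_of_surjective (hG := h2) (f := toH1 Γ) (toH1_surjective Γ)

variable {A : Type*} [AddCommGroup A]

theorem comp_toH1_mem (ψ : H1 Γ →+ A) : ψ.comp (toH1 Γ) ∈ ellParHoms Γ A := by
  intro γ hγ
  have h0 : toH1 Γ (Additive.ofMul γ) = 0 :=
    (QuotientAddGroup.eq_zero_iff _).2 (AddSubgroup.subset_closure ⟨γ, hγ, rfl⟩)
  show ψ (toH1 Γ (Additive.ofMul γ)) = 0
  rw [h0, map_zero]

theorem exists_comp_toH1 {φ : Additive Γ →+ A} (hφ : φ ∈ ellParHoms Γ A) :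
    ∃ ψ : H1 Γ →+ A, ψ.comp (toH1 Γ) = φ := by
  let g : Additive (Abelianization Γ) →+ A :=
    MonoidHom.toAdditiveLeft (Abelianization.lift (AddMonoidHom.toMultiplicativeRight φ))
  have hg : ∀ γ : Γ, g (Additive.ofMul (Abelianization.of γ)) = φ (Additive.ofMul γ) := by
    intro γ
    simp [g]
  refine ⟨QuotientAddGroup.lift _ g ?_, AddMonoidHom.ext fun γ => ?_⟩
  · rw [AddSubgroup.closure_le]
    rintro a ⟨γ, hγ, rfl⟩
    show g _ = 0
    rw [hg]
    exact hφ γ hγ
  · exact hg (Additive.toMul γ)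

/-- `Hom(H1 Γ, A) = ellParHoms Γ A` -/
noncomputable def homH1Equiv : (H1 Γ →+ A) ≃ ellParHoms Γ A :=
  Equiv.ofBijective (fun ψ => ⟨ψ.comp (toH1 Γ), comp_toH1_mem Γ ψ⟩)
    ⟨fun ψ ψ' h => by
      have := Subtype.ext_iff.1 h
      refine AddMonoidHom.ext fun q => ?_
      obtain ⟨γ, rfl⟩ := toH1_surjective Γ q
      exact DFunLike.congr_fun this γ,
    fun φ => (exists_comp_toH1 Γ φ.2).imp fun ψ h => Subtype.ext h⟩

theorem natCard_hom_H1 [Γ.FiniteIndex] (hneg : -1 ∈ Γ) [Finite A] :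
    Nat.card (H1 Γ →+ A) = Nat.card A ^ (2 * genusOf Γ) := by
  rw [Nat.card_congr (homH1Equiv Γ), natCard_ellParHoms_of_neg_one_mem hneg]

/-- `Hom(ℤⁿ, A) ≅ Aⁿ` -/
theorem natCard_hom_finsupp (n : ℕ) :
    Nat.card ((Fin n →₀ ℤ) →+ A) = Nat.card A ^ n := by
  rw [Nat.card_congr (Finsupp.liftAddHom (α := Fin n) (M := ℤ) (N := A)).symm.toEquiv, Nat.card_fun,
    Nat.card_congr (zmultiplesHom A).symm, Nat.card_fin]

theorem H1_equiv [Γ.FiniteIndex] (hneg : -1 ∈ Γ) :
    Nonempty (H1 Γ ≃+ (Fin (2 * genusOf Γ) →₀ ℤ)) := by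
  classical
  have := H1_fg Γ
  obtain ⟨n, ι, hι, p, hp, e, ⟨f⟩⟩ := AddCommGroup.equiv_free_prod_directSum_zmod (H1 Γ)
  let F := Fin n →₀ ℤ
  let D := ⨁ i : ι, ZMod (p i ^ e i)
  -- a prime coprime to the torsion
  obtain ⟨ℓ, hℓle, hℓ⟩ := Nat.exists_infinite_primes (∑ i, p i + 1)
  have hne : ∀ i, p i ≠ ℓ := fun i h => by
    have := Finset.single_le_sum (f := p) (fun j _ => Nat.zero_le _) (Finset.mem_univ i)
    omega
  have card_hom : ∀ q : ℕ, q.Prime →
      Nat.card (F →+ ZMod q) * Nat.card (D →+ ZMod q) = q ^ (2 * genusOf Γ) := by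
    intro q hq
    have := Fact.mk hq
    have h := natCard_hom_H1 Γ (A := ZMod q) hneg
    rw [Nat.card_zmod] at h
    rw [← h, ← Nat.card_prod]
    refine Nat.card_congr ?_
    exact (Equiv.ofBijective (fun x : (F →+ ZMod q) × (D →+ ZMod q) =>
        (x.1.coprod x.2).comp f.toAddMonoidHom)
      ⟨fun x y h => by
        have h' : ∀ z, x.1.coprod x.2 z = y.1.coprod y.2 z := fun z => by
          obtain ⟨w, rfl⟩ := f.surjective z
          exact DFunLike.congr_fun h w
        refine Prod.ext (AddMonoidHom.ext fun a => ?_) (AddMonoidHom.ext fun a => ?_)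
        · simpa using h' (a, 0)
        · simpa using h' (0, a),
      fun ψ => ⟨((ψ.comp f.symm.toAddMonoidHom).comp (AddMonoidHom.inl _ _),
        (ψ.comp f.symm.toAddMonoidHom).comp (AddMonoidHom.inr _ _)), AddMonoidHom.ext fun a => by
          simp only [AddMonoidHom.coe_comp, Function.comp_apply, AddMonoidHom.coprod_apply,
            AddEquiv.coe_toAddMonoidHom, AddMonoidHom.inl_apply, AddMonoidHom.inr_apply]
          rw [← map_add, ← map_add, Prod.mk_add_mk, add_zero, zero_add]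
          exact congrArg ψ (f.symm_apply_apply a)⟩⟩)
  have hDℓ : Nat.card (D →+ ZMod ℓ) = 1 := by
    rw [Nat.card_eq_one_iff_unique]
    refine ⟨⟨fun φ ψ => DirectSum.addHom_ext' fun i => AddMonoidHom.ext fun x => ?_⟩, ⟨0⟩⟩
    have := Fact.mk hℓ
    have hzero : ∀ χ : ZMod (p i ^ e i) →+ ZMod ℓ, χ x = 0 := by
      intro χ
      have h1 : (p i ^ e i) • χ x = 0 := by
        rw [← map_nsmul, nsmul_eq_mul, ZMod.natCast_self, zero_mul, map_zero]
      rw [nsmul_eq_mul, mul_eq_zero] at h1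
      refine h1.resolve_left fun h0 => ?_
      rw [CharP.cast_eq_zero_iff (ZMod ℓ) ℓ] at h0
      exact hne i ((Nat.prime_dvd_prime_iff_eq hℓ (hp i)).1 (hℓ.dvd_of_dvd_pow h0)).symm
    rw [hzero, hzero]
  have hn : n = 2 * genusOf Γ := by
    have h := card_hom ℓ hℓ
    rw [hDℓ, mul_one, natCard_hom_finsupp, Nat.card_zmod] at h
    exact Nat.pow_right_injective hℓ.two_le h
  have hD : Subsingleton D := by
    have he : ∀ i, e i = 0 := by
      intro i
      by_contra he
      have := Fact.mk (hp i)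
      have h := card_hom (p i) (hp i)
      rw [natCard_hom_finsupp, Nat.card_zmod, hn] at h
      have h1 : Nat.card (D →+ ZMod (p i)) = 1 :=
        Nat.eq_of_mul_eq_mul_left (pow_pos (hp i).pos _) (h.trans (mul_one _).symm)
      rw [Nat.card_eq_one_iff_unique] at h1
      obtain ⟨hs, -⟩ := h1
      let χ : ZMod (p i ^ e i) →+ ZMod (p i) :=
        (ZMod.castHom (dvd_pow_self (p i) he) (ZMod (p i))).toAddMonoidHom
      let ψ : D →+ ZMod (p i) := DirectSum.toAddMonoid fun j =>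
        (Pi.single (M := fun j => ZMod (p j ^ e j) →+ ZMod (p i)) i χ) j
      have h2 : ψ (DirectSum.of (fun j => ZMod (p j ^ e j)) i 1) = 1 := by
        simp only [ψ]
        rw [DirectSum.toAddMonoid_of, Pi.single_eq_same]
        exact map_one (ZMod.castHom (dvd_pow_self (p i) he) (ZMod (p i)))
      rw [hs.elim ψ 0] at h2
      exact zero_ne_one h2
    have : ∀ i, Subsingleton (ZMod (p i ^ e i)) := fun i => by
      rw [he i, pow_zero]
      infer_instance
    exact ⟨fun a b => DFinsupp.ext fun i => Subsingleton.elim _ _⟩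
  subst hn
  have := hD
  exact ⟨f.trans
    { toFun := Prod.fst
      invFun := fun a => (a, 0)
      left_inv := fun x => Prod.ext rfl (Subsingleton.elim _ _)
      right_inv := fun _ => rfl
      map_add' := fun _ _ => rfl }⟩

/-- There are `2g` elements of `Γ` on which any elliptic-parabolic-killing homomorphism is freely
determined. -/
theorem exists_basis_of_neg_one_mem.{w} [Γ.FiniteIndex] (hneg : -1 ∈ Γ) :
    ∃ γ : Fin (2 * genusOf Γ) → Γ, ∀ (B : Type w) [AddCommGroup B],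
      Function.Bijective fun (φ : ellParHoms Γ B) i => (φ : Additive Γ →+ B) (Additive.ofMul (γ i)) := by
  obtain ⟨f⟩ := H1_equiv Γ hneg
  choose γ hγ using fun i => toH1_surjective Γ (f.symm (Finsupp.single i 1))
  refine ⟨fun i => Additive.toMul (γ i), fun B _ => ?_⟩
  have key : ∀ (ψ : H1 Γ →+ B) (i), ψ.comp (toH1 Γ) (γ i) = ψ (f.symm (Finsupp.single i 1)) :=
    fun ψ i => congrArg ψ (hγ i)
  constructor
  · intro φ φ' h
    obtain ⟨ψ, hψ⟩ := exists_comp_toH1 Γ φ.2
    obtain ⟨ψ', hψ'⟩ := exists_comp_toH1 Γ φ'.2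
    have hψeq : ψ.comp f.symm.toAddMonoidHom = ψ'.comp f.symm.toAddMonoidHom := by
      refine Finsupp.addHom_ext' fun i => AddMonoidHom.ext_int ?_
      show ψ (f.symm (Finsupp.single i 1)) = ψ' (f.symm (Finsupp.single i 1))
      rw [← key, ← key, hψ, hψ']
      exact congrFun h i
    refine Subtype.ext ?_
    rw [← hψ, ← hψ']
    congr 1
    refine AddMonoidHom.ext fun q => ?_
    have := DFunLike.congr_fun hψeq (f q)
    simpa using this
  · intro b
    let ψ : H1 Γ →+ B :=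
      (Finsupp.liftAddHom fun i => zmultiplesHom B (b i)).comp f.toAddMonoidHom
    refine ⟨⟨ψ.comp (toH1 Γ), comp_toH1_mem Γ ψ⟩, funext fun i => ?_⟩
    show ψ.comp (toH1 Γ) (γ i) = b i
    rw [key]
    simp [ψ]

end Fermat.Agent.Gamma0
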