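import Mathlib.Algebra.Module.TransferInstance
import Mathlib.LinearAlgebra.FreeModule.Finite.Basic
import Mathlib.LinearAlgebra.Dimension.Constructions
import Mathlib.LinearAlgebra.FiniteDimensional.Basic
import Fermat.Prelude.Def_ModularCurve_PeriodMap
import Fermat.Agent.Gamma0.Cusps
import Fermat.Agent.Gamma0.Structure

/-!
# The genus of `Γ₀(N)` and parabolic homomorphisms
-/

open scoped MatrixGroups
open CongruenceSubgroup ModularGroup

namespace Fermat.Agent.Gamma0

/-- The genus of `X₀(N)`, as a natural number. -/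
noncomputable def genus (N : ℕ) : ℕ := genusOf (Gamma0 N)

/-- number of orbits of `S`: `2 #orbits = ψ(N) + ν₂(N)` -/
theorem two_mul_natCard_orb_S (N : ℕ) [NeZero N] :
    2 * Nat.card (Orb (SL(2, ℤ) ⧸ Gamma0 N) ModularGroup.S) =
      ModularCurve.dedekindPsi N + ModularCurve.nuTwo N := by
  rw [← natCard_fixedBy_S, ← natCard_quotient, ← card_add_mul_fixed _ Nat.prime_two fun x => by
    rw [pow_two, mul_smul, S_smul_S_smul (neg_one_mem_Gamma0 N)]]; simp

/-- number of orbits of `ST`: `3 #orbits = ψ(N) + 2 ν₃(N)` -/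
theorem three_mul_natCard_orb_ST (N : ℕ) [NeZero N] :
    3 * Nat.card (Orb (SL(2, ℤ) ⧸ Gamma0 N) ST) =
      ModularCurve.dedekindPsi N + 2 * ModularCurve.nuThree N := by
  rw [← natCard_fixedBy_ST, ← natCard_quotient, ← card_add_mul_fixed _ Nat.prime_three fun x => by
    rw [ST_pow_three, neg_one_smul_coset (neg_one_mem_Gamma0 N)]]

theorem natCard_orb_T (N : ℕ) [NeZero N] :
    Nat.card (Orb (SL(2, ℤ) ⧸ Gamma0 N) ModularGroup.T) = ModularCurve.cuspCount N :=
  natCard_cusps N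

/-- `genusFormula N` is the natural number `genus N`. -/
theorem genus_eq (N : ℕ) [NeZero N] : (genus N : ℚ) = ModularCurve.genusFormula N := by
  have h := two_mul_genusOf_add (Γ := Gamma0 N) (neg_one_mem_Gamma0 N)
  rw [natCard_orb_T, natCard_quotient] at h
  have h2 := two_mul_natCard_orb_S N
  have h3 := three_mul_natCard_orb_ST N
  replace h := congrArg (Nat.cast : ℕ → ℚ) h
  replace h2 := congrArg (Nat.cast : ℕ → ℚ) h2
  replace h3 := congrArg (Nat.cast : ℕ → ℚ) h3
  push_cast at h h2 h3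
  rw [ModularCurve.genusFormula, genus]
  linarith

theorem natCard_ellParHoms (N : ℕ) [NeZero N] (A : Type*) [AddCommGroup A] [Finite A] :
    Nat.card (ellParHoms (Gamma0 N) A) = Nat.card A ^ (2 * genus N) :=
  natCard_ellParHoms_of_neg_one_mem (neg_one_mem_Gamma0 N)

theorem exists_ellParHoms_basis.{w} (N : ℕ) [NeZero N] :
    ∃ γ : Fin (2 * genus N) → Gamma0 N, ∀ (B : Type w) [AddCommGroup B],
      Function.Bijective fun (φ : ellParHoms (Gamma0 N) B) i =>
        (φ : Additive (Gamma0 N) →+ B) (Additive.ofMul (γ i)) :=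
  exists_basis_of_neg_one_mem (Gamma0 N) (neg_one_mem_Gamma0 N)

section Parabolic

open ModularCurve.Period

variable {Γ : Subgroup SL(2, ℤ)}

/-- For torsion-free coefficients the parabolic homomorphisms automatically kill elliptic
elements. -/
theorem isParabolicHom_iff_mem_ellParHoms {A : Type*} [AddCommGroup A] [IsAddTorsionFree A]
    {φ : Additive Γ →+ A} : IsParabolicHom Γ φ ↔ φ ∈ ellParHoms Γ A := by
  refine ⟨fun hφ γ hγ => ?_, fun hφ γ hγ => hφ γ hγ.le⟩
  obtain ⟨h, n, hn, hh⟩ := hasStdConj_of_trace_sq (γ : SL(2, ℤ)) hγ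
  have key : n ^ 4 = 1 ∨ n ^ 6 = 1 ∨
      ((γ : SL(2, ℤ)) : Matrix (Fin 2) (Fin 2) ℤ).trace ^ 2 = 4 := by
    rcases hn with rfl | rfl | rfl | ⟨k, rfl⟩
    · left; decide
    · right; left; decide
    · right; left; decide
    · right; right
      have : (γ : SL(2, ℤ)) = h⁻¹ * (h * (γ : SL(2, ℤ)) * h⁻¹) * h := by group
      rw [this, Matrix.SpecialLinearGroup.coe_mul, Matrix.trace_mul_comm,
        ← Matrix.SpecialLinearGroup.coe_mul, ← mul_assoc h, mul_inv_cancel, one_mul]
      rcases hh with hh | hh <;> rw [hh] <;>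
        simp [coe_T_zpow, Matrix.trace_fin_two]
  have hpow : ∀ m : ℕ, 0 < m → Even m → n ^ m = 1 → φ (Additive.ofMul γ) = 0 := by
    intro m hm hev hnm
    have hγm : (γ : SL(2, ℤ)) ^ m = 1 := by
      have hc : (h * (γ : SL(2, ℤ)) * h⁻¹) ^ m = 1 := by
        rcases hh with hh | hh <;> rw [hh]
        · exact hnm
        · rw [hev.neg_pow, hnm]
      rwa [conj_pow, mul_inv_eq_one, mul_eq_left] at hc
    have hsub : γ ^ m = 1 := Subtype.ext hγm
    have h1 : m • φ (Additive.ofMul γ) = 0 := by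
      rw [← map_nsmul, ← ofMul_pow, hsub, ofMul_one, map_zero]
    exact (smul_eq_zero.1 h1).resolve_left hm.ne'
  rcases key with h4 | h6 | htr
  · exact hpow 4 (by decide) (by decide) h4
  · exact hpow 6 (by decide) (by decide) h6
  · exact hφ γ htr

/-- natural coordinates on parabolic homomorphisms -/
theorem exists_parabolicHoms_equiv.{r, w} [Γ.FiniteIndex] (hneg : -1 ∈ Γ) :
    ∃ γ : Fin (2 * genusOf Γ) → Γ,
      ∀ (R : Type r) (A : Type w) [Semiring R] [AddCommGroup A] [Module R A] [IsAddTorsionFree A],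
        ∃ e : parabolicHoms R Γ A ≃ₗ[R] (Fin (2 * genusOf Γ) → A),
          ∀ φ i, e φ i = (φ : Additive Γ →+ A) (Additive.ofMul (γ i)) := by
  obtain ⟨γ, hγ⟩ := exists_basis_of_neg_one_mem.{w} Γ hneg
  refine ⟨γ, fun R A _ _ _ _ => ?_⟩
  let f : parabolicHoms R Γ A →ₗ[R] (Fin (2 * genusOf Γ) → A) :=
    { toFun := fun φ i => (φ : Additive Γ →+ A) (Additive.ofMul (γ i))
      map_add' := fun _ _ => rfl
      map_smul' := fun _ _ => rfl }
  refine ⟨LinearEquiv.ofBijective f ⟨fun φ ψ h => ?_, fun b => ?_⟩, fun φ i => rfl⟩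
  · have h' := (hγ A).1 (a₁ := ⟨_, isParabolicHom_iff_mem_ellParHoms.1 φ.2⟩)
      (a₂ := ⟨_, isParabolicHom_iff_mem_ellParHoms.1 ψ.2⟩) h
    exact Subtype.ext (Subtype.ext_iff.1 h' :)
  · obtain ⟨φ, hφ⟩ := (hγ A).2 b
    exact ⟨⟨φ.1, isParabolicHom_iff_mem_ellParHoms.2 φ.2⟩, hφ⟩

variable (N : ℕ) [NeZero N]

theorem exists_parabolicHoms_Gamma0_equiv.{r, w} :
    ∃ γ : Fin (2 * genus N) → Gamma0 N,
      ∀ (R : Type r) (A : Type w) [Semiring R] [AddCommGroup A] [Module R A] [IsAddTorsionFree A],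
        ∃ e : parabolicHoms R (Gamma0 N) A ≃ₗ[R] (Fin (2 * genus N) → A),
          ∀ φ i, e φ i = (φ : Additive (Gamma0 N) →+ A) (Additive.ofMul (γ i)) :=
  exists_parabolicHoms_equiv (neg_one_mem_Gamma0 N)

theorem parabolicHoms_free (R : Type*) [CommRing R] [IsAddTorsionFree R] :
    Module.Free R (parabolicHoms R (Gamma0 N) R) ∧
      Module.Finite R (parabolicHoms R (Gamma0 N) R) := by
  obtain ⟨γ, hγ⟩ := exists_parabolicHoms_Gamma0_equiv N
  obtain ⟨e, -⟩ := hγ R R
  exact ⟨Module.Free.of_equiv e.symm, Module.Finite.equiv e.symm⟩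

theorem finrank_parabolicHoms (R : Type*) [CommRing R] [Nontrivial R] [IsAddTorsionFree R] :
    Module.finrank R (parabolicHoms R (Gamma0 N) R) = 2 * genus N := by
  obtain ⟨γ, hγ⟩ := exists_parabolicHoms_Gamma0_equiv N
  obtain ⟨e, -⟩ := hγ R R
  rw [e.finrank_eq, Module.finrank_fin_fun]

end Parabolic

end Fermat.Agent.Gamma0
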